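/-
T1G-AN (helper1), AN-FRICKE part 1: the row sums `Σ_{n ∈ ℤ} 1/(w + n)² = (2πi)² · u/(1 - u)²`,
`u = exp(2πi w)`, for every `w ∈ ℂ ∖ ℤ` (Mathlib has it on the upper half plane only).
-/
import Mathlib

set_option autoImplicit false

open Complex Filter Topology
open scoped Real

noncomputable section

namespace Fermat.Agent.T1G

/-- `W(u) = u / (1 - u)²` -/
def tgaW (u : ℂ) : ℂ := u / (1 - u) ^ 2

theorem tgaW_inv {u : ℂ} (hu : u ≠ 0) : tgaW u⁻¹ = tgaW u := by
  rw [tgaW, tgaW]
  by_cases h1 : u = 1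
  · subst h1; simp
  have h2 : (1 - u) ≠ 0 := sub_ne_zero.mpr (Ne.symm h1)
  have h3 : (1 - u⁻¹) ≠ 0 := by
    rw [sub_ne_zero]
    intro h
    apply h1
    have := congrArg (fun x => x * u) h
    simp only [one_mul, inv_mul_cancel₀ hu] at this
    exact this
  field_simp
  ring

/-- `Σ_{k ≥ 0} k u^k = W(u)` for `‖u‖ < 1` -/
theorem tga_hasSum_W {u : ℂ} (hu : ‖u‖ < 1) : HasSum (fun k : ℕ => (k : ℂ) * u ^ k) (tgaW u) :=
  hasSum_coe_mul_geometric_of_norm_lt_one hu

theorem tga_norm_exp_lt_one {w : ℂ} (hw : 0 < w.im) : ‖cexp (2 * π * I * w)‖ < 1 := by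
  rw [Complex.norm_exp]
  have : (2 * π * I * w).re = -(2 * π * w.im) := by
    simp [Complex.mul_re, Complex.mul_im]
  rw [this, Real.exp_lt_one_iff]
  have := Real.pi_pos
  nlinarith

/-- the row sum in the upper half plane -/
theorem tga_tsum_row_of_im_pos {w : ℂ} (hw : 0 < w.im) :
    ∑' n : ℤ, 1 / (w + n) ^ 2 = (2 * π * I) ^ 2 * tgaW (cexp (2 * π * I * w)) := by
  have h := EisensteinSeries.qExpansion_identity (k := 1) le_rfl ⟨w, hw⟩
  have h1 : ((⟨w, hw⟩ : UpperHalfPlane) : ℂ) = w := rfl
  simp only [pow_one, Nat.factorial_one, Nat.cast_one, div_one] at h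
  rw [show (1 : ℕ) + 1 = 2 from rfl] at h
  rw [h, (tga_hasSum_W (tga_norm_exp_lt_one hw)).tsum_eq]
  ring

/-- row summability -/
theorem tga_summable_row (w : ℂ) : Summable fun n : ℤ => 1 / (w + n) ^ 2 := by
  have := EisensteinSeries.linear_right_summable w 1 (k := 2) le_rfl
  refine this.congr fun n => ?_
  simp only [Int.cast_one, one_mul, one_div]
  rfl

/-- the row sum in the lower half plane -/
theorem tga_tsum_row_of_im_neg {w : ℂ} (hw : w.im < 0) :
    ∑' n : ℤ, 1 / (w + n) ^ 2 = (2 * π * I) ^ 2 * tgaW (cexp (2 * π * I * w)) := by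
  have hw' : 0 < (-w).im := by simpa using hw
  have h := tga_tsum_row_of_im_pos hw'
  have h1 : ∑' n : ℤ, 1 / (w + n) ^ 2 = ∑' n : ℤ, 1 / (-w + n) ^ 2 := by
    rw [← (Equiv.neg ℤ).tsum_eq]
    refine tsum_congr fun n => ?_
    simp only [Equiv.neg_apply, Int.cast_neg]
    congr 1
    ring
  rw [h1, h]
  congr 1
  have : cexp (2 * π * I * -w) = (cexp (2 * π * I * w))⁻¹ := by
    rw [← Complex.exp_neg]
    congr 1
    ring
  rw [this, tgaW_inv (Complex.exp_ne_zero _)]

/-- uniform domination of the rows near a non-integral point -/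
theorem tga_row_continuousAt {w₀ : ℂ} (hw₀ : w₀ ∈ Complex.integerComplement) :
    ContinuousAt (fun w : ℂ => ∑' n : ℤ, 1 / (w + n) ^ 2) w₀ := by
  obtain ⟨ε, hε, hball⟩ := Metric.isOpen_iff.mp Complex.isOpen_compl_range_intCast w₀ hw₀
  set δ := ε / 2 with hδ
  have hδ0 : 0 < δ := by positivity
  have hfar : ∀ n : ℤ, ε ≤ ‖w₀ + n‖ := by
    intro n
    by_contra hlt
    push Not at hlt
    have hmem : ((-n : ℤ) : ℂ) ∈ Metric.ball w₀ ε := by
      rw [Metric.mem_ball, dist_eq_norm]
      have : ((-n : ℤ) : ℂ) - w₀ = -(w₀ + n) := by push_cast; ring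
      rw [this, norm_neg]
      exact hlt
    exact hball hmem ⟨-n, rfl⟩
  have hcont : ContinuousOn (fun w : ℂ => ∑' n : ℤ, 1 / (w + n) ^ 2) (Metric.ball w₀ δ) := by
    apply continuousOn_tsum (u := fun n : ℤ => 4 * ‖1 / (w₀ + n) ^ 2‖)
    · intro n
      apply ContinuousOn.div continuousOn_const
      · exact ((continuous_id.add continuous_const).pow 2).continuousOn
      · intro w hw
        apply pow_ne_zero
        intro h0
        have h1 : ‖w₀ + n‖ ≤ ‖w₀ - w‖ + ‖w + n‖ := by
          have : w₀ + n = (w₀ - w) + (w + n) := by ring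
          rw [this]
          exact norm_add_le _ _
        rw [h0, norm_zero, add_zero] at h1
        have h2 : ‖w₀ - w‖ < δ := by
          rw [← dist_eq_norm, dist_comm]
          exact Metric.mem_ball.mp hw
        have := hfar n
        linarith
    · exact ((tga_summable_row w₀).norm).mul_left 4
    · intro n w hw
      have h2 : ‖w₀ - w‖ < δ := by
        rw [← dist_eq_norm, dist_comm]
        exact Metric.mem_ball.mp hw
      have h1 : ‖w₀ + n‖ ≤ ‖w₀ - w‖ + ‖w + n‖ := by
        have : w₀ + n = (w₀ - w) + (w + n) := by ring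
        rw [this]
        exact norm_add_le _ _
      have h3 := hfar n
      have h4 : ‖w₀ + n‖ / 2 ≤ ‖w + n‖ := by linarith
      have h5 : 0 < ‖w₀ + n‖ := lt_of_lt_of_le hε h3
      have h6 : 0 < ‖w + n‖ := lt_of_lt_of_le (by positivity) h4
      rw [norm_div, norm_div, norm_one, norm_pow, norm_pow]
      rw [mul_one_div, div_le_div_iff₀ (by positivity) (by positivity)]
      have : ‖w₀ + n‖ ^ 2 ≤ 4 * ‖w + n‖ ^ 2 := by nlinarith
      linarith
  exact hcont.continuousAt (Metric.ball_mem_nhds w₀ hδ0)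

/-- **the row sum** for every non-integral `w` -/
theorem tga_tsum_row {w : ℂ} (hw : w ∈ Complex.integerComplement) :
    ∑' n : ℤ, 1 / (w + n) ^ 2 = (2 * π * I) ^ 2 * tgaW (cexp (2 * π * I * w)) := by
  rcases lt_trichotomy w.im 0 with h | h | h
  · exact tga_tsum_row_of_im_neg h
  · -- real, non-integral: continuity
    have hF := tga_row_continuousAt hw
    have hne : cexp (2 * π * I * w) ≠ 1 := by
      intro h1
      rw [Complex.exp_eq_one_iff] at h1
      obtain ⟨n, hn⟩ := h1
      apply hw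
      refine ⟨n, ?_⟩
      have h2 : (2 * π * I : ℂ) ≠ 0 := by
        simp [Real.pi_ne_zero]
      have : (2 * π * I : ℂ) * w = (2 * π * I) * n := by rw [hn]; ring
      exact (mul_left_cancel₀ h2 this).symm
    have hG : ContinuousAt (fun w : ℂ => (2 * π * I) ^ 2 * tgaW (cexp (2 * π * I * w))) w := by
      unfold tgaW
      apply ContinuousAt.mul continuousAt_const
      apply ContinuousAt.div
      · exact (Complex.continuous_exp.comp (continuous_const.mul continuous_id)).continuousAt
      · exact ((continuous_const.sub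
          (Complex.continuous_exp.comp (continuous_const.mul continuous_id))).pow 2).continuousAt
      · apply pow_ne_zero
        rw [sub_ne_zero]
        exact Ne.symm hne
    refine tendsto_nhds_unique_of_frequently_eq hF hG ?_
    have hcl : w ∈ closure {z : ℂ | 0 < z.im} := by
      rw [Complex.closure_setOfPred_lt_im]
      exact h.ge
    exact (mem_closure_iff_frequently.mp hcl).mono fun z hz => tga_tsum_row_of_im_pos hz
  · exact tga_tsum_row_of_im_pos h

end Fermat.Agent.T1G
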