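/-
T1G-AN (helper1), AN-FRICKE part 3: weighted Lambert series.
`Σ_{e ≥ 1} Σ_{d ≥ 1} g(e, d) r^{e d} = Σ_n (Σ_{d ∣ n} g(n/d, d)) r^n` for `‖g(e, d)‖ ≤ d`, `‖r‖ < 1`, and
`Σ_{e ≥ 1, β e} W(ξ r^e) = Σ_n (Σ_{d ∣ n, β (n/d)} d ξ^d) r^n` for `‖ξ‖ ≤ 1`.
-/
import Mathlib
import Fermat.Agent.Lib.T1G.An.Cot

set_option autoImplicit false

open Complex Filter Topology
open scoped Real

noncomputable section

namespace Fermat.Agent.T1G

/-- summability of weighted Lambert double series -/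
theorem tga_lambert_summable {r : ℂ} (hr : ‖r‖ < 1) (g : ℕ → ℕ → ℂ)
    (hg : ∀ e d, ‖g e d‖ ≤ (d : ℝ)) :
    Summable fun c : ℕ+ × ℕ+ => g c.1 c.2 * r ^ ((c.1 : ℕ) * (c.2 : ℕ)) := by
  have h := summable_prod_mul_pow (𝕜 := ℂ) 1 hr
  refine Summable.of_norm_bounded h.norm fun c => ?_
  rw [norm_mul, norm_mul]
  apply mul_le_mul_of_nonneg_right _ (norm_nonneg _)
  simpa using hg c.1 c.2

/-- regrouping a weighted Lambert double series into a power series (indexed by `ℕ+`) -/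
theorem tga_lambert_hasSum_pnat {r : ℂ} (hr : ‖r‖ < 1) (g : ℕ → ℕ → ℂ)
    (hg : ∀ e d, ‖g e d‖ ≤ (d : ℝ)) :
    HasSum (fun n : ℕ+ => (∑ d ∈ (n : ℕ).divisors, g ((n : ℕ) / d) d) * r ^ (n : ℕ))
      (∑' c : ℕ+ × ℕ+, g c.1 c.2 * r ^ ((c.1 : ℕ) * (c.2 : ℕ))) := by
  have hs := tga_lambert_summable hr g hg
  have h1 := (sigmaAntidiagonalEquivProd.hasSum_iff).mpr hs.hasSum
  refine h1.sigma fun n => ?_
  have h2 := hasSum_fintype (fun x : Nat.divisorsAntidiagonal (n : ℕ) =>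
    ((fun c : ℕ+ × ℕ+ => g c.1 c.2 * r ^ ((c.1 : ℕ) * (c.2 : ℕ))) ∘ sigmaAntidiagonalEquivProd)
      ⟨n, x⟩)
  convert h2 using 1
  rw [Finset.sum_mul]
  have h3 : ∀ x : Nat.divisorsAntidiagonal (n : ℕ),
      ((fun c : ℕ+ × ℕ+ => g c.1 c.2 * r ^ ((c.1 : ℕ) * (c.2 : ℕ))) ∘ sigmaAntidiagonalEquivProd)
        ⟨n, x⟩ = g x.1.1 x.1.2 * r ^ (n : ℕ) := by
    intro x
    have h4 := divisorsAntidiagonalFactors_eq x
    simp only [Function.comp_apply, sigmaAntidiagonalEquivProd, Equiv.coe_fn_mk]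
    exact congrArg₂ (· * ·) rfl (congrArg (fun k => r ^ k) h4)
  rw [Finset.sum_congr rfl fun x _ => h3 x]
  rw [Finset.univ_eq_attach,
    (n : ℕ).divisorsAntidiagonal.sum_attach (fun x : ℕ × ℕ => g x.1 x.2 * r ^ (n : ℕ)),
    Nat.sum_divisorsAntidiagonal' (fun a b => g a b * r ^ (n : ℕ))]

/-- regrouping a weighted Lambert double series into a power series (indexed by `ℕ`) -/
theorem tga_lambert_hasSum {r : ℂ} (hr : ‖r‖ < 1) (g : ℕ → ℕ → ℂ)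
    (hg : ∀ e d, ‖g e d‖ ≤ (d : ℝ)) :
    HasSum (fun n : ℕ => (∑ d ∈ n.divisors, g (n / d) d) * r ^ n)
      (∑' c : ℕ+ × ℕ+, g c.1 c.2 * r ^ ((c.1 : ℕ) * (c.2 : ℕ))) := by
  have h := tga_lambert_hasSum_pnat hr g hg
  rw [← (PNat.coe_injective).hasSum_iff (f := fun n : ℕ => (∑ d ∈ n.divisors, g (n / d) d) * r ^ n)]
  · exact h
  · intro n hn
    have : n = 0 := by
      by_contra h0
      exact hn ⟨⟨n, Nat.pos_of_ne_zero h0⟩, rfl⟩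
    subst this
    simp

/-- `Σ_{d ≥ 1} d ξ^d r^{e d} = W(ξ r^e)` -/
theorem tga_hasSum_W_pnat {u : ℂ} (hu : ‖u‖ < 1) :
    HasSum (fun d : ℕ+ => ((d : ℕ) : ℂ) * u ^ (d : ℕ)) (tgaW u) := by
  have h := tga_hasSum_W hu
  rw [← (PNat.coe_injective).hasSum_iff (f := fun k : ℕ => (k : ℂ) * u ^ k)] at h
  · exact h
  · intro n hn
    have : n = 0 := by
      by_contra h0
      exact hn ⟨⟨n, Nat.pos_of_ne_zero h0⟩, rfl⟩
    subst this
    simp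

theorem tga_norm_mul_pow_lt_one {ξ r : ℂ} (hξ : ‖ξ‖ ≤ 1) (hr : ‖r‖ < 1) (e : ℕ+) :
    ‖ξ * r ^ (e : ℕ)‖ < 1 := by
  rw [norm_mul, norm_pow]
  have h1 : ‖r‖ ^ (e : ℕ) < 1 := pow_lt_one₀ (norm_nonneg _) hr (PNat.ne_zero e)
  have h2 : 0 ≤ ‖r‖ ^ (e : ℕ) := by positivity
  calc ‖ξ‖ * ‖r‖ ^ (e : ℕ) ≤ 1 * ‖r‖ ^ (e : ℕ) := by gcongr
    _ < 1 := by rw [one_mul]; exact h1

/-- **the Lambert series of a residue condition**: `Σ_{e ≥ 1, β e} W(ξ r^e)` as a power series -/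
theorem tga_lambert_W {r ξ : ℂ} (hr : ‖r‖ < 1) (hξ : ‖ξ‖ ≤ 1) (β : ℕ → Prop) [DecidablePred β] :
    HasSum (fun e : ℕ+ => if β e then tgaW (ξ * r ^ (e : ℕ)) else 0)
        (∑' c : ℕ+ × ℕ+, (if β c.1 then ((c.2 : ℕ) : ℂ) * ξ ^ (c.2 : ℕ) else 0) *
          r ^ ((c.1 : ℕ) * (c.2 : ℕ))) ∧
    HasSum (fun n : ℕ => (∑ d ∈ n.divisors, if β (n / d) then (d : ℂ) * ξ ^ d else 0) * r ^ n)
        (∑' c : ℕ+ × ℕ+, (if β c.1 then ((c.2 : ℕ) : ℂ) * ξ ^ (c.2 : ℕ) else 0) *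
          r ^ ((c.1 : ℕ) * (c.2 : ℕ))) := by
  set g : ℕ → ℕ → ℂ := fun e d => if β e then (d : ℂ) * ξ ^ d else 0 with hg
  have hgb : ∀ e d, ‖g e d‖ ≤ (d : ℝ) := by
    intro e d
    rw [hg]
    simp only
    split_ifs
    · rw [norm_mul, norm_pow, Complex.norm_natCast]
      calc (d : ℝ) * ‖ξ‖ ^ d ≤ (d : ℝ) * 1 := by
            gcongr
            exact pow_le_one₀ (norm_nonneg _) hξ
        _ = d := mul_one _
    · rw [norm_zero]; positivity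
  refine ⟨?_, tga_lambert_hasSum hr g hgb⟩
  have hs := tga_lambert_summable hr g hgb
  refine hs.hasSum.prod_fiberwise fun e => ?_
  show HasSum (fun d : ℕ+ => g e d * r ^ ((e : ℕ) * (d : ℕ))) _
  by_cases hβ : β e
  · rw [if_pos hβ]
    have h1 := tga_hasSum_W_pnat (tga_norm_mul_pow_lt_one hξ hr e)
    refine h1.congr_fun fun d => ?_
    rw [hg]
    simp only
    rw [if_pos hβ, mul_pow, ← pow_mul, mul_assoc]
  · rw [if_neg hβ]
    have : (fun d : ℕ+ => g e d * r ^ ((e : ℕ) * (d : ℕ))) = fun _ => 0 := by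
      funext d
      rw [hg]
      simp only
      rw [if_neg hβ, zero_mul]
    rw [this]
    exact hasSum_zero

end Fermat.Agent.T1G
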