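/-
T1G-AN (helper1), AN-FRICKE part 2: the division values `℘_τ((x₀ τ + x₁)/M)` of the Weierstrass
function of the lattice `ℤτ + ℤ`: dependence on `x` modulo `M` only, and the transformation law
under `SL(2, ℤ)` (weight `2`, `x ↦ x γ`).
-/
import Mathlib

set_option autoImplicit false

open Complex UpperHalfPlane Matrix MatrixGroups
open scoped Real

noncomputable section

namespace Fermat.Agent.T1G

/-- the period pair `(τ, 1)` -/
def tgaPair (τ : ℍ) : PeriodPair where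
  ω₁ := τ
  ω₂ := 1
  indep := by
    rw [LinearIndependent.pair_iff]
    intro s t h
    have him := congrArg Complex.im h
    simp only [Complex.add_im, Complex.real_smul, Complex.mul_im, Complex.ofReal_re,
      Complex.ofReal_im, UpperHalfPlane.coe_im, zero_mul, add_zero, Complex.one_im, mul_zero,
      Complex.zero_im] at him
    have hs : s = 0 := by
      rcases mul_eq_zero.mp him with h | h
      · exact h
      · exact absurd h τ.im_ne_zero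
    refine ⟨hs, ?_⟩
    subst hs
    have hre := congrArg Complex.re h
    simpa using hre

@[simp] theorem tgaPair_ω₁ (τ : ℍ) : (tgaPair τ).ω₁ = τ := rfl
@[simp] theorem tgaPair_ω₂ (τ : ℍ) : (tgaPair τ).ω₂ = 1 := rfl

theorem mem_tgaPair_lattice {τ : ℍ} {x : ℂ} :
    x ∈ (tgaPair τ).lattice ↔ ∃ m n : ℤ, (m : ℂ) * τ + n = x := by
  rw [PeriodPair.mem_lattice]
  simp only [tgaPair_ω₁, tgaPair_ω₂, mul_one]

/-- homogeneity of the Weierstrass function -/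
theorem tga_weierstrassP_smul (L L' : PeriodPair) (s : ℂ) (hs : s ≠ 0)
    (h : ∀ x, x ∈ L'.lattice ↔ ∃ y ∈ L.lattice, x = s * y) (z : ℂ) :
    L'.weierstrassP (s * z) = (s ^ 2)⁻¹ * L.weierstrassP z := by
  let e : L.lattice ≃ L'.lattice :=
    { toFun := fun l => ⟨s * l, (h _).mpr ⟨l, l.2, rfl⟩⟩
      invFun := fun l => ⟨s⁻¹ * l, by
        obtain ⟨y, hy, hxy⟩ := (h _).mp l.2
        rw [hxy, inv_mul_cancel_left₀ hs]
        exact hy⟩
      left_inv := fun l => by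
        apply Subtype.ext
        show s⁻¹ * (s * (l : ℂ)) = l
        rw [inv_mul_cancel_left₀ hs]
      right_inv := fun l => by
        apply Subtype.ext
        show s * (s⁻¹ * (l : ℂ)) = l
        rw [mul_inv_cancel_left₀ hs] }
  rw [PeriodPair.weierstrassP, PeriodPair.weierstrassP, ← e.tsum_eq, ← tsum_mul_left]
  refine tsum_congr fun l => ?_
  show 1 / (s * z - s * (l : ℂ)) ^ 2 - 1 / (s * (l : ℂ)) ^ 2 =
    (s ^ 2)⁻¹ * (1 / (z - (l : ℂ)) ^ 2 - 1 / (l : ℂ) ^ 2)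
  rw [← mul_sub, mul_pow, mul_pow]
  field_simp

variable (M : ℕ) [NeZero M]

/-- the division point `(x₀ τ + x₁)/M` -/
def tgaZ (x : ℤ × ℤ) (τ : ℍ) : ℂ := ((x.1 : ℂ) * τ + x.2) / M

/-- the division value `℘_τ((x₀ τ + x₁)/M)` -/
def tgaP (x : ℤ × ℤ) (τ : ℍ) : ℂ := (tgaPair τ).weierstrassP (tgaZ M x τ)

theorem tgaZ_add_mul (x y : ℤ × ℤ) (τ : ℍ) :
    tgaZ M (x + (M : ℤ) • y) τ = tgaZ M x τ + ((y.1 : ℂ) * τ + y.2) := by
  have hM : (M : ℂ) ≠ 0 := Nat.cast_ne_zero.mpr (NeZero.ne M)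
  simp only [tgaZ, Prod.fst_add, Prod.snd_add, Prod.smul_fst, Prod.smul_snd, smul_eq_mul]
  push_cast
  field_simp
  ring

/-- the division values only depend on `x` modulo `M` -/
theorem tgaP_add_mul (x y : ℤ × ℤ) (τ : ℍ) : tgaP M (x + (M : ℤ) • y) τ = tgaP M x τ := by
  rw [tgaP, tgaZ_add_mul]
  have hmem : ((y.1 : ℂ) * τ + y.2) ∈ (tgaPair τ).lattice := mem_tgaPair_lattice.mpr ⟨_, _, rfl⟩
  exact (tgaPair τ).weierstrassP_add_coe _ ⟨_, hmem⟩

/-- the right action of `SL(2, ℤ)` on integral row vectors -/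
def tgaVec (γ : SL(2, ℤ)) (x : ℤ × ℤ) : ℤ × ℤ :=
  (x.1 * γ 0 0 + x.2 * γ 1 0, x.1 * γ 0 1 + x.2 * γ 1 1)

theorem tga_coe_smul (γ : SL(2, ℤ)) (τ : ℍ) :
    ((γ • τ : ℍ) : ℂ) = ((γ 0 0 : ℂ) * τ + γ 0 1) / denom γ τ := by
  rw [UpperHalfPlane.coe_specialLinearGroup_apply, ModularGroup.denom_apply]
  simp

theorem tgaZ_smul (γ : SL(2, ℤ)) (x : ℤ × ℤ) (τ : ℍ) :
    tgaZ M x (γ • τ) = (denom γ τ)⁻¹ * tgaZ M (tgaVec γ x) τ := by
  have hM : (M : ℂ) ≠ 0 := Nat.cast_ne_zero.mpr (NeZero.ne M)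
  have hd : denom γ τ ≠ 0 := denom_ne_zero γ τ
  rw [tgaZ, tgaZ, tga_coe_smul, tgaVec]
  have hden : denom γ τ = (γ 1 0 : ℂ) * τ + γ 1 1 := ModularGroup.denom_apply γ τ
  push_cast
  field_simp
  rw [hden]
  ring

/-- the lattice of `γ τ` -/
theorem tga_lattice_smul (γ : SL(2, ℤ)) (τ : ℍ) (x : ℂ) :
    x ∈ (tgaPair (γ • τ)).lattice ↔ ∃ y ∈ (tgaPair τ).lattice, x = (denom γ τ)⁻¹ * y := by
  have hd : denom γ τ ≠ 0 := denom_ne_zero γ τ
  have hden : denom γ τ = (γ 1 0 : ℂ) * τ + γ 1 1 := ModularGroup.denom_apply γ τ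
  have hdet : (γ 0 0 : ℤ) * γ 1 1 - γ 0 1 * γ 1 0 = 1 := by
    have := γ.det_coe
    rw [Matrix.det_fin_two] at this
    exact this
  constructor
  · intro hx
    obtain ⟨m, n, rfl⟩ := mem_tgaPair_lattice.mp hx
    refine ⟨(m * γ 0 0 + n * γ 1 0 : ℤ) * τ + (m * γ 0 1 + n * γ 1 1 : ℤ),
      mem_tgaPair_lattice.mpr ⟨_, _, rfl⟩, ?_⟩
    rw [tga_coe_smul]
    push_cast
    field_simp
    rw [hden]
    ring
  · rintro ⟨y, hy, rfl⟩
    obtain ⟨m, n, rfl⟩ := mem_tgaPair_lattice.mp hy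
    refine mem_tgaPair_lattice.mpr ⟨m * γ 1 1 - n * γ 1 0, n * γ 0 0 - m * γ 0 1, ?_⟩
    rw [tga_coe_smul]
    have hdetC : (γ 0 0 : ℂ) * γ 1 1 - γ 0 1 * γ 1 0 = 1 := by exact_mod_cast hdet
    push_cast
    field_simp
    rw [hden]
    linear_combination ((m : ℂ) * τ + n) * hdetC

/-- **the transformation law** of the division values -/
theorem tgaP_smul (γ : SL(2, ℤ)) (x : ℤ × ℤ) (τ : ℍ) :
    tgaP M x (γ • τ) = denom γ τ ^ 2 * tgaP M (tgaVec γ x) τ := by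
  have hd : denom γ τ ≠ 0 := denom_ne_zero γ τ
  rw [tgaP, tgaZ_smul, tga_weierstrassP_smul (tgaPair τ) (tgaPair (γ • τ)) (denom γ τ)⁻¹
    (inv_ne_zero hd) (tga_lattice_smul γ τ), tgaP, inv_pow, inv_inv]

end Fermat.Agent.T1G
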