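/-
T1G-AN (helper1), AN-FRICKE part 4: the difference of two division values of `℘` as a sum over the
rows of the lattice: `℘_τ(z) - ℘_τ(z') = (2πi)² Σ_{m ∈ ℤ} (W(e(z - mτ)) - W(e(z' - mτ)))`,
`e(w) = exp(2πi w)`, `W(u) = u/(1-u)²`.
-/
import Mathlib
import Fermat.Agent.Lib.T1G.An.Cot
import Fermat.Agent.Lib.T1G.An.Lattice

set_option autoImplicit false

open Complex Filter Topology
open UpperHalfPlane hiding I
open scoped Real

noncomputable section

namespace Fermat.Agent.T1G

/-- one row of the lattice sum -/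
theorem tga_hasSum_row {τ : ℍ} {z : ℂ} (hz : z ∉ (tgaPair τ).lattice) (m : ℤ) :
    HasSum (fun n : ℤ => 1 / (z - ((m : ℂ) * τ + n)) ^ 2)
      ((2 * π * I) ^ 2 * tgaW (cexp (2 * π * I * (z - m * τ)))) := by
  have hw : z - (m : ℂ) * τ ∈ Complex.integerComplement := by
    rintro ⟨n, hn⟩
    apply hz
    refine mem_tgaPair_lattice.mpr ⟨m, n, ?_⟩
    rw [hn]
    ring
  have h1 := (tga_summable_row (z - (m : ℂ) * τ)).hasSum
  rw [tga_tsum_row hw] at h1
  have h2 := ((Equiv.neg ℤ).hasSum_iff).mpr h1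
  refine h2.congr_fun fun n => ?_
  simp only [Function.comp_apply, Equiv.neg_apply, Int.cast_neg]
  congr 2
  ring

/-- **the row decomposition** of a difference of two values of `℘` -/
theorem tga_hasSum_rows {τ : ℍ} {z z' : ℂ} (hz : z ∉ (tgaPair τ).lattice)
    (hz' : z' ∉ (tgaPair τ).lattice) :
    HasSum (fun m : ℤ => (2 * π * I) ^ 2 * (tgaW (cexp (2 * π * I * (z - m * τ))) -
        tgaW (cexp (2 * π * I * (z' - m * τ)))))
      ((tgaPair τ).weierstrassP z - (tgaPair τ).weierstrassP z') := by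
  have h1 := ((tgaPair τ).hasSum_weierstrassP z).sub ((tgaPair τ).hasSum_weierstrassP z')
  have h2 := ((tgaPair τ).latticeEquivProd.symm.toEquiv.hasSum_iff).mpr h1
  have h3 : HasSum (fun p : ℤ × ℤ => 1 / (z - ((p.1 : ℂ) * τ + p.2)) ^ 2 -
      1 / (z' - ((p.1 : ℂ) * τ + p.2)) ^ 2)
      ((tgaPair τ).weierstrassP z - (tgaPair τ).weierstrassP z') := by
    refine h2.congr_fun fun p => ?_
    simp only [Function.comp_apply, LinearEquiv.coe_toEquiv]
    rw [PeriodPair.latticeEquiv_symm_apply]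
    simp only [tgaPair_ω₁, tgaPair_ω₂, mul_one]
    ring
  refine h3.prod_fiberwise fun m => ?_
  have h4 := (tga_hasSum_row hz m).sub (tga_hasSum_row hz' m)
  rw [← mul_sub] at h4
  exact h4

end Fermat.Agent.T1G
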