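/-
T1G-AN (helper1), AN-FRICKE part 5: the `t`-expansion (`t = exp(2πiτ/M)`) of the row sums
`Σ_{m ∈ ℤ} W(e(z_v - mτ))`, `z_v = (bτ + a)/M`: it is the power series `Σ_n tgaC M v n · t^n` with
`tgaC M v 0 = [b = 0] W(ζ^a)`, `tgaC M v n = Σ_{d ∣ n} d ([n/d ≡ b] ζ^{ad} + [n/d ≡ -b] ζ^{-ad})`.
-/
import Mathlib
import Fermat.Agent.Lib.T1G.An.Rows
import Fermat.Agent.Lib.T1G.An.Lambert

set_option autoImplicit false
set_option linter.unusedSectionVars false

open Complex Filter Topology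
open UpperHalfPlane hiding I
open scoped Real

noncomputable section

namespace Fermat.Agent.T1G

variable (M : ℕ) [NeZero M]

/-- `t = exp(2πiτ/M)` -/
def tgaT (τ : ℍ) : ℂ := cexp (2 * π * I * τ / M)

/-- `ζ = exp(2πi/M)` -/
def tgaZeta : ℂ := cexp (2 * π * I / M)

theorem tgaT_ne_zero (τ : ℍ) : tgaT M τ ≠ 0 := Complex.exp_ne_zero _

theorem tgaZeta_ne_zero : tgaZeta M ≠ 0 := Complex.exp_ne_zero _

theorem tgaT_norm_lt_one (τ : ℍ) : ‖tgaT M τ‖ < 1 := by
  rw [tgaT, Complex.norm_exp]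
  have hM : (0 : ℝ) < M := Nat.cast_pos.mpr (Nat.pos_of_ne_zero (NeZero.ne M))
  have : (2 * π * I * τ / M : ℂ).re = -(2 * π * τ.im / M) := by
    have h1 : (2 * π * I * τ / M : ℂ) = ((2 * π / M : ℝ) : ℂ) * (I * τ) := by
      push_cast; ring
    rw [h1, Complex.re_ofReal_mul]
    simp only [Complex.mul_re, Complex.I_re, zero_mul, Complex.I_im, one_mul, zero_sub,
      UpperHalfPlane.coe_im]
    ring
  rw [this, Real.exp_lt_one_iff]
  have := τ.im_pos
  have := Real.pi_pos
  have : 0 < 2 * π * τ.im / M := by positivity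
  linarith

theorem tgaZeta_norm : ‖tgaZeta M‖ = 1 := by
  rw [tgaZeta, Complex.norm_exp]
  have : (2 * π * I / M : ℂ).re = 0 := by
    have h1 : (2 * π * I / M : ℂ) = ((2 * π / M : ℝ) : ℂ) * I := by
      push_cast; ring
    rw [h1, Complex.re_ofReal_mul, Complex.I_re, mul_zero]
  rw [this, Real.exp_zero]

theorem tgaZeta_pow_norm (k : ℕ) : ‖tgaZeta M ^ k‖ = 1 := by
  rw [norm_pow, tgaZeta_norm, one_pow]

theorem tgaZeta_pow_M : tgaZeta M ^ M = 1 := by
  have hM : (M : ℂ) ≠ 0 := Nat.cast_ne_zero.mpr (NeZero.ne M)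
  rw [tgaZeta, ← Complex.exp_nat_mul, mul_div_cancel₀ _ hM, Complex.exp_two_pi_mul_I]

/-- the exponential of a division point shifted by a row -/
theorem tga_exp_row (x : ℤ × ℤ) (m : ℤ) (τ : ℍ) :
    cexp (2 * π * I * (tgaZ M x τ - m * τ)) =
      tgaZeta M ^ x.2 * tgaT M τ ^ (x.1 - m * M) := by
  have hM : (M : ℂ) ≠ 0 := Nat.cast_ne_zero.mpr (NeZero.ne M)
  rw [tgaZeta, tgaT, ← Complex.exp_int_mul, ← Complex.exp_int_mul, ← Complex.exp_add, tgaZ]
  congr 1
  push_cast
  field_simp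
  ring

/-! ### Arithmetic progressions -/

variable {M}

theorem tga_hasSum_prog (F : ℕ → ℂ) (b : ZMod M)
    (hF : ∀ e : ℕ, ((e : ℕ) : ZMod M) ≠ b → F e = 0) {S : ℂ} (h : HasSum F S) :
    HasSum (fun n : ℕ => F (b.val + n * M)) S := by
  have hM : 0 < M := Nat.pos_of_ne_zero (NeZero.ne M)
  have hinj : Function.Injective (fun n : ℕ => b.val + n * M) := by
    intro n n' hnn
    have h1 : n * M = n' * M := Nat.add_left_cancel hnn
    exact Nat.eq_of_mul_eq_mul_right hM h1
  have h2 := (hinj.hasSum_iff (f := F) ?_).mpr h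
  · exact h2
  · intro e he
    apply hF
    intro heq
    apply he
    refine ⟨e / M, ?_⟩
    have h3 : e % M = b.val := by
      rw [← ZMod.val_natCast, heq]
    show b.val + e / M * M = e
    rw [← h3]
    exact Nat.mod_add_div' e M

theorem tga_hasSum_prog_neg (F : ℕ → ℂ) (b : ZMod M)
    (hF : ∀ e : ℕ, ((e : ℕ) : ZMod M) ≠ -b → F e = 0) {S : ℂ}
    (h : HasSum (fun n : ℕ => F (n + 1)) S) :
    HasSum (fun n : ℕ => F ((n + 1) * M - b.val)) S := by
  have hM : 0 < M := Nat.pos_of_ne_zero (NeZero.ne M)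
  have hb : b.val < M := ZMod.val_lt b
  have hge : ∀ n : ℕ, b.val + 1 ≤ (n + 1) * M := by
    intro n
    calc b.val + 1 ≤ M := hb
      _ = 1 * M := (one_mul M).symm
      _ ≤ (n + 1) * M := Nat.mul_le_mul_right M (by omega)
  have hinj : Function.Injective (fun n : ℕ => (n + 1) * M - b.val - 1) := by
    intro n n' hnn
    have h1 := hge n
    have h2 := hge n'
    have h3 : (n + 1) * M = (n' + 1) * M := by
      simp only at hnn
      omega
    have := Nat.eq_of_mul_eq_mul_right hM h3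
    omega
  have h2 := (hinj.hasSum_iff (f := fun k : ℕ => F (k + 1)) ?_).mpr h
  · refine h2.congr_fun fun n => ?_
    simp only [Function.comp_apply]
    have h1 := hge n
    congr 1
    omega
  · intro k hk
    apply hF
    intro heq
    apply hk
    have h3 : ((k + 1 + b.val : ℕ) : ZMod M) = 0 := by
      push_cast at heq ⊢
      rw [heq, ZMod.natCast_zmod_val]
      ring
    rw [ZMod.natCast_eq_zero_iff] at h3
    obtain ⟨c, hc⟩ := h3
    have hc0 : c ≠ 0 := by
      rintro rfl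
      omega
    refine ⟨c - 1, ?_⟩
    show (c - 1 + 1) * M - b.val - 1 = k
    rw [Nat.sub_add_cancel (Nat.pos_of_ne_zero hc0), mul_comm, ← hc]
    omega

variable (M)

/-! ### The half series -/

/-- the Lambert series of the residue class `b` -/
theorem tga_hasSum_half {ξ t : ℂ} (hξ : ‖ξ‖ ≤ 1) (ht : ‖t‖ < 1) (b : ZMod M) :
    ∃ Λ : ℂ,
      HasSum (fun n : ℕ =>
        (∑ d ∈ n.divisors, if ((n / d : ℕ) : ZMod M) = b then (d : ℂ) * ξ ^ d else 0) * t ^ n) Λ ∧
      HasSum (fun n : ℕ =>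
        if ((n + 1 : ℕ) : ZMod M) = b then tgaW (ξ * t ^ (n + 1)) else 0) Λ := by
  obtain ⟨H1, H2⟩ := tga_lambert_W ht hξ (fun e : ℕ => ((e : ℕ) : ZMod M) = b)
  refine ⟨_, H2, ?_⟩
  have H3 := (Equiv.pnatEquivNat.symm.hasSum_iff).mpr H1
  refine H3.congr_fun fun n => ?_
  simp only [Function.comp_apply, Equiv.pnatEquivNat_symm_apply, Nat.succPNat_coe, Nat.succ_eq_add_one]

/-- the coefficients of the `t`-expansion -/
def tgaC (v : ZMod M × ZMod M) (n : ℕ) : ℂ :=
  if n = 0 then (if v.1 = 0 then tgaW (tgaZeta M ^ v.2.val) else 0)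
  else ∑ d ∈ n.divisors,
    ((if ((n / d : ℕ) : ZMod M) = v.1 then (d : ℂ) * (tgaZeta M ^ v.2.val) ^ d else 0) +
     (if ((n / d : ℕ) : ZMod M) = -v.1 then (d : ℂ) * ((tgaZeta M ^ v.2.val)⁻¹) ^ d else 0))

/-- **the row sums of one division point as a power series in `t`** -/
theorem tga_hasSum_vec (v : ZMod M × ZMod M) (τ : ℍ) :
    ∃ S : ℂ,
      HasSum (fun m : ℤ => tgaW (cexp (2 * π * I *
        (tgaZ M ((v.1.val : ℤ), (v.2.val : ℤ)) τ - m * τ)))) S ∧
      HasSum (fun n : ℕ => tgaC M v n * tgaT M τ ^ n) S := by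
  have hMpos : 0 < M := Nat.pos_of_ne_zero (NeZero.ne M)
  set ξ : ℂ := tgaZeta M ^ v.2.val with hξdef
  set t : ℂ := tgaT M τ with htdef
  set b : ZMod M := v.1 with hbdef
  have hξ1 : ‖ξ‖ = 1 := tgaZeta_pow_norm M _
  have hξ : ‖ξ‖ ≤ 1 := hξ1.le
  have hξi : ‖ξ⁻¹‖ ≤ 1 := by rw [norm_inv, hξ1, inv_one]
  have hξ0 : ξ ≠ 0 := pow_ne_zero _ (tgaZeta_ne_zero M)
  have ht : ‖t‖ < 1 := tgaT_norm_lt_one M τ
  have ht0 : t ≠ 0 := tgaT_ne_zero M τ
  obtain ⟨Λp, hp1, hp2⟩ := tga_hasSum_half M hξ ht b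
  obtain ⟨Λm, hm1, hm2⟩ := tga_hasSum_half M hξi ht (-b)
  set c₀ : ℂ := if b = 0 then tgaW ξ else 0 with hc₀
  refine ⟨(Λp + c₀) + Λm, ?_, ?_⟩
  · -- the sum over the rows
    set F₀ : ℕ → ℂ := fun e => if ((e : ℕ) : ZMod M) = b then tgaW (ξ * t ^ e) else 0 with hF₀
    set F₁ : ℕ → ℂ := fun e => if ((e : ℕ) : ZMod M) = -b then tgaW (ξ⁻¹ * t ^ e) else 0 with hF₁
    have hF₀sum : HasSum F₀ (Λp + c₀) := by
      have h1 : HasSum (fun n : ℕ => F₀ (n + 1)) Λp := hp2
      have h2 := (hasSum_nat_add_iff 1).mp h1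
      have h3 : ∑ i ∈ Finset.range 1, F₀ i = c₀ := by
        rw [Finset.sum_range_one, hF₀, hc₀]
        simp only [Nat.cast_zero, pow_zero, mul_one]
        by_cases hb0 : b = 0
        · rw [if_pos hb0, if_pos hb0.symm]
        · rw [if_neg hb0, if_neg (Ne.symm hb0)]
      rwa [h3] at h2
    have hprog := tga_hasSum_prog F₀ b (fun e he => if_neg he) hF₀sum
    have hneg := tga_hasSum_prog_neg F₁ b (fun e he => if_neg he) hm2
    -- the family indexed by `m' = -m`
    set f' : ℤ → ℂ := fun m' => tgaW (ξ * t ^ ((b.val : ℤ) + m' * M)) with hf'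
    have hf'sum : HasSum f' ((Λp + c₀) + Λm) := by
      apply HasSum.of_nat_of_neg_add_one
      · refine hprog.congr_fun fun n => ?_
        have hcast : ((b.val + n * M : ℕ) : ZMod M) = b := by
          push_cast
          rw [ZMod.natCast_zmod_val, ZMod.natCast_self, mul_zero, add_zero]
        rw [hf', hF₀]
        simp only
        rw [if_pos hcast]
        have : ((b.val : ℤ) + (n : ℤ) * M) = ((b.val + n * M : ℕ) : ℤ) := by push_cast; ring
        rw [this, zpow_natCast]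
      · refine hneg.congr_fun fun n => ?_
        have hb : b.val < M := ZMod.val_lt b
        have hle : b.val ≤ (n + 1) * M := by
          calc b.val ≤ M := hb.le
            _ = 1 * M := (one_mul M).symm
            _ ≤ (n + 1) * M := Nat.mul_le_mul_right M (by omega)
        have hcast : (((n + 1) * M - b.val : ℕ) : ZMod M) = -b := by
          rw [Nat.cast_sub hle]
          push_cast
          rw [ZMod.natCast_zmod_val, ZMod.natCast_self, mul_zero, zero_sub]
        rw [hf', hF₁]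
        simp only
        rw [if_pos hcast]
        have : ((b.val : ℤ) + (-((n : ℤ) + 1)) * M) = -(((n + 1) * M - b.val : ℕ) : ℤ) := by
          rw [Nat.cast_sub hle]
          push_cast
          ring
        rw [this, zpow_neg, zpow_natCast]
        have h0 : ξ⁻¹ * t ^ ((n + 1) * M - b.val) ≠ 0 :=
          mul_ne_zero (inv_ne_zero hξ0) (pow_ne_zero _ ht0)
        rw [← tgaW_inv h0, mul_inv, inv_inv]
    have h4 := ((Equiv.neg ℤ).hasSum_iff).mpr hf'sum
    refine h4.congr_fun fun m => ?_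
    simp only [Function.comp_apply, Equiv.neg_apply, hf']
    rw [tga_exp_row]
    simp only
    rw [zpow_natCast, sub_eq_add_neg, ← neg_mul]
  · -- the power series
    have hc : HasSum (fun n : ℕ => (if n = 0 then c₀ else 0) * t ^ n) c₀ := by
      have h1 := hasSum_ite_eq (0 : ℕ) c₀
      refine h1.congr_fun fun n => ?_
      by_cases hn : n = 0
      · subst hn
        simp
      · simp [hn]
    have hsum := (hp1.add hc).add hm1
    refine hsum.congr_fun fun n => ?_
    rw [tgaC]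
    by_cases hn : n = 0
    · subst hn
      simp only [Nat.divisors_zero, Finset.sum_empty, pow_zero, mul_one, if_true,
        zero_add, add_zero]
      rfl
    · rw [if_neg hn, if_neg hn, zero_mul, add_zero, Finset.sum_add_distrib, add_mul]

/-- the division point of a nonzero vector is not a lattice point -/
theorem tgaZ_notMem_lattice {v : ZMod M × ZMod M} (hv : v ≠ 0) (τ : ℍ) :
    tgaZ M ((v.1.val : ℤ), (v.2.val : ℤ)) τ ∉ (tgaPair τ).lattice := by
  intro hmem
  obtain ⟨m, n, hmn⟩ := mem_tgaPair_lattice.mp hmem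
  have hM : (M : ℂ) ≠ 0 := Nat.cast_ne_zero.mpr (NeZero.ne M)
  have hMpos : (0 : ℤ) < M := by exact_mod_cast Nat.pos_of_ne_zero (NeZero.ne M)
  rw [tgaZ, eq_div_iff hM] at hmn
  simp only [Int.cast_natCast] at hmn
  have him := congrArg Complex.im hmn
  have hre := congrArg Complex.re hmn
  simp only [Complex.mul_im, Complex.add_im, Complex.intCast_re, Complex.intCast_im,
    UpperHalfPlane.coe_im, UpperHalfPlane.coe_re, zero_mul, add_zero, Complex.natCast_re,
    Complex.natCast_im, mul_zero, Complex.mul_re, Complex.add_re, sub_zero] at him hre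
  have h1 : ((m : ℝ) * M - v.1.val) * τ.im = 0 := by linarith
  have h2 : (m : ℝ) * M = v.1.val := by
    rcases mul_eq_zero.mp h1 with h | h
    · linarith
    · exact absurd h τ.im_ne_zero
  have h2' : m * M = (v.1.val : ℤ) := by exact_mod_cast h2
  have hb : (v.1.val : ℤ) < M := by exact_mod_cast ZMod.val_lt v.1
  have hb0 : (0 : ℤ) ≤ v.1.val := by positivity
  have hm0 : m = 0 := by
    by_contra hne
    rcases lt_or_gt_of_ne hne with h | h
    · have : m * M ≤ -1 * M := Int.mul_le_mul_of_nonneg_right (by omega) hMpos.le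
      omega
    · have : 1 * (M : ℤ) ≤ m * M := Int.mul_le_mul_of_nonneg_right (by omega) hMpos.le
      omega
  have hv1 : v.1.val = 0 := by
    rw [hm0, zero_mul] at h2'
    exact_mod_cast h2'.symm
  rw [hm0, hv1] at hre
  simp only [Int.cast_zero, zero_mul, Nat.cast_zero, zero_add] at hre
  have h3 : n * M = (v.2.val : ℤ) := by
    have : (n : ℝ) * M = v.2.val := by linarith
    exact_mod_cast this
  have ha : (v.2.val : ℤ) < M := by exact_mod_cast ZMod.val_lt v.2
  have ha0 : (0 : ℤ) ≤ v.2.val := by positivity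
  have hn0 : n = 0 := by
    by_contra hne
    rcases lt_or_gt_of_ne hne with h | h
    · have : n * M ≤ -1 * M := Int.mul_le_mul_of_nonneg_right (by omega) hMpos.le
      omega
    · have : 1 * (M : ℤ) ≤ n * M := Int.mul_le_mul_of_nonneg_right (by omega) hMpos.le
      omega
  have hv2 : v.2.val = 0 := by
    rw [hn0, zero_mul] at h3
    exact_mod_cast h3.symm
  apply hv
  ext
  · exact (ZMod.val_eq_zero _).mp hv1
  · exact (ZMod.val_eq_zero _).mp hv2

/-- the division value of a vector in `(ℤ/M)²` -/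
def tgaPv (v : ZMod M × ZMod M) (τ : ℍ) : ℂ := tgaP M ((v.1.val : ℤ), (v.2.val : ℤ)) τ

/-- **the `t`-expansion of a difference of two division values** -/
theorem tga_hasSum_diff {v w : ZMod M × ZMod M} (hv : v ≠ 0) (hw : w ≠ 0) (τ : ℍ) :
    HasSum (fun n : ℕ => (tgaC M v n - tgaC M w n) * tgaT M τ ^ n)
      ((tgaPv M v τ - tgaPv M w τ) / (2 * π * I) ^ 2) := by
  obtain ⟨Sv, hv1, hv2⟩ := tga_hasSum_vec M v τ
  obtain ⟨Sw, hw1, hw2⟩ := tga_hasSum_vec M w τ
  have hrows := tga_hasSum_rows (tgaZ_notMem_lattice M hv τ) (tgaZ_notMem_lattice M hw τ)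
  have h1 := (hv1.sub hw1).mul_left ((2 * π * I) ^ 2)
  have h2 := hrows.unique h1
  have hpi : ((2 * π * I : ℂ)) ^ 2 ≠ 0 := by
    apply pow_ne_zero
    simp [Real.pi_ne_zero]
  have h3 : (tgaPv M v τ - tgaPv M w τ) / (2 * π * I) ^ 2 = Sv - Sw := by
    rw [tgaPv, tgaPv, tgaP, tgaP, h2, mul_div_cancel_left₀ _ hpi]
  rw [h3]
  refine (hv2.sub hw2).congr_fun fun n => ?_
  rw [sub_mul]

end Fermat.Agent.T1G
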