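/-
T1G-AN (helper1), AN-FRICKE part 6: the analytic normaliser `E₄ E₆ / Δ` (weight `-2`), its
transformation law and its `q`-expansion `tgNorm ℂ`.
-/
import Mathlib
import Fermat.Agent.Lib.T1G.Model.Series
import Fermat.Agent.Lib.S24.JLaurent

set_option autoImplicit false
set_option linter.unusedSectionVars false

namespace Fermat.Agent.T1G

open ModularForm Matrix MatrixGroups Filter Topology
open UpperHalfPlane hiding I
open scoped ModularForm Manifold
open Fermat.Agent.ES Fermat.Agent.S24Lib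

local notation "Δ" => ModularForm.discriminant

theorem tga_bernoulli_six_eq : _root_.bernoulli 6 = 1 / 42 := by
  rw [bernoulli_eq_bernoulli'_of_ne_one (by norm_num)]
  have h5 : bernoulli' 5 = 0 := bernoulli'_eq_zero_of_odd (by decide) (by norm_num)
  rw [bernoulli'_def]
  norm_num [Finset.sum_range_succ, Finset.sum_range_zero, Nat.choose, h5]

/-- the `q`-expansion of `E₆` is the formal series `tgE6`. -/
theorem tga_qExpansion_E₆ :
    qExpansion 1 ModularForm.E₆ = PowerSeries.map (Int.castRingHom ℂ) tgE6 := by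
  ext m
  rw [EisensteinSeries.E_qExpansion_coeff _ ⟨3, rfl⟩, PowerSeries.coeff_map,
    tgE6, PowerSeries.coeff_mk]
  split_ifs with h
  · simp
  · rw [tga_bernoulli_six_eq, ArithmeticFunction.sigma_apply]
    push_cast
    norm_num

/-- `E₆` is nice (holomorphic, `1`-periodic, bounded). -/
theorem tga_isNice_E₆ : IsNice ((1 : ℕ) : ℝ) (ModularForm.E₆ : ℍ → ℂ) where
  mdiff := mdiff_E₆
  periodic z := by
    have hmem : (((1 : ℕ) : ℝ)) ∈ (𝒮ℒ).strictPeriods := by
      simp only [Subgroup.strictPeriods_SL2Z, AddSubgroup.mem_zmultiples_iff]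
      exact ⟨1, by simp⟩
    exact SlashInvariantForm.vAdd_apply_of_mem_strictPeriods ModularForm.E₆ z hmem
  bdd := ModularFormClass.bdd_at_infty ModularForm.E₆

/-- the analytic normaliser `E₄ E₆ / Δ` -/
noncomputable def tgaNorm (τ : ℍ) : ℂ := ModularForm.E₄ τ * ModularForm.E₆ τ / Δ τ

theorem tgaNorm_mul_discriminant (τ : ℍ) :
    tgaNorm τ * Δ τ = ModularForm.E₄ τ * ModularForm.E₆ τ := by
  rw [tgaNorm, div_mul_cancel₀ _ (discriminant_ne_zero τ)]

theorem tga_mdiff_tgaNorm : MDiff tgaNorm :=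
  (mdiff_E₄.mul mdiff_E₆).div mdiff_discriminant discriminant_ne_zero

/-- weight `-2` -/
theorem tgaNorm_smul (γ : SL(2, ℤ)) (τ : ℍ) :
    tgaNorm (γ • τ) * denom γ τ ^ 2 = tgaNorm τ := by
  have hd : denom γ τ ≠ 0 := denom_ne_zero γ τ
  have hΔ := discriminant_ne_zero τ
  rw [tgaNorm, tgaNorm, E₄_smul, E₆_smul, discriminant_smul]
  field_simp

theorem tgaNorm_vadd_one (z : ℍ) : tgaNorm (((1 : ℕ) : ℝ) +ᵥ z) = tgaNorm z := by
  rw [tgaNorm, tgaNorm, isNice_E₄.periodic, tga_isNice_E₆.periodic, discriminant_vadd_nat]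

theorem tga_isQLaurentable_tgaNorm : IsQLaurentable 1 tgaNorm where
  mdiff := tga_mdiff_tgaNorm
  periodic := tgaNorm_vadd_one
  mero := by
    refine ⟨1, ?_⟩
    refine isBoundedAtImInfty_congr (isNice_E₄.mul tga_isNice_E₆).bdd (fun z => ?_)
    rw [pow_one, tgaNorm_mul_discriminant]

/-- the Laurent expansion of the analytic normaliser is the formal one -/
theorem tga_qLaurent_tgaNorm : qLaurent 1 tgaNorm = tgNorm ℂ := by
  have hΔ := isNice_discriminant 1
  have h1 : qLaurent 1 (fun z => tgaNorm z * Δ z) = qLaurent 1 tgaNorm * qLaurent 1 Δ :=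
    qLaurent_mul tga_isQLaurentable_tgaNorm hΔ.isQLaurentable
  have hfun : (fun z => tgaNorm z * Δ z) = fun z => ModularForm.E₄ z * ModularForm.E₆ z := by
    ext z
    exact tgaNorm_mul_discriminant z
  rw [hfun, qLaurent_of_nice (isNice_E₄.mul tga_isNice_E₆),
    isNice_E₄.qExpansion_mul tga_isNice_E₆ (by norm_num), qLaurent_of_nice hΔ] at h1
  have hc1 : (((1 : ℕ) : ℝ)) = 1 := Nat.cast_one
  rw [hc1, qExpansion_E₄, tga_qExpansion_E₆, qExpansion_discriminant] at h1
  have hD : HahnSeries.ofPowerSeries ℤ ℂ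
      (PowerSeries.X * PowerSeries.map (Int.castRingHom ℂ) ModularCurve.dedekindEtaUnit) ≠ 0 := by
    rw [← qExpansion_discriminant]
    intro h0
    exact qExpansion_discriminant_ne_zero (HahnSeries.ofPowerSeries_injective (by rw [h0, map_zero]))
  have h2 : tgNorm ℂ * HahnSeries.ofPowerSeries ℤ ℂ
      (PowerSeries.X * PowerSeries.map (Int.castRingHom ℂ) ModularCurve.dedekindEtaUnit) =
      HahnSeries.ofPowerSeries ℤ ℂ
        (PowerSeries.map (Int.castRingHom ℂ) ModularCurve.eisenstein4 *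
          PowerSeries.map (Int.castRingHom ℂ) tgE6) := by
    have hunit : PowerSeries.map (Int.castRingHom ℂ) ModularCurve.dedekindEtaUnitInv *
        PowerSeries.map (Int.castRingHom ℂ) ModularCurve.dedekindEtaUnit = 1 := by
      rw [← map_mul, mul_comm, ModularCurve.dedekindEtaUnit_mul_inv, map_one]
    have e4 : HahnSeries.single (-1 : ℤ) (1 : ℂ) * HahnSeries.single (1 : ℤ) (1 : ℂ) = 1 := by
      rw [HahnSeries.single_mul_single]
      simp
    rw [tgNorm, tgNormNum, map_mul, map_mul, map_mul, map_mul, map_mul, HahnSeries.ofPowerSeries_X]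
    calc HahnSeries.single (-1 : ℤ) (1 : ℂ) *
          (HahnSeries.ofPowerSeries ℤ ℂ (PowerSeries.map (Int.castRingHom ℂ)
            ModularCurve.eisenstein4) *
            HahnSeries.ofPowerSeries ℤ ℂ (PowerSeries.map (Int.castRingHom ℂ) tgE6) *
          HahnSeries.ofPowerSeries ℤ ℂ (PowerSeries.map (Int.castRingHom ℂ)
            ModularCurve.dedekindEtaUnitInv)) *
          (HahnSeries.single (1 : ℤ) (1 : ℂ) *
            HahnSeries.ofPowerSeries ℤ ℂ (PowerSeries.map (Int.castRingHom ℂ)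
              ModularCurve.dedekindEtaUnit))
        = (HahnSeries.single (-1 : ℤ) (1 : ℂ) * HahnSeries.single (1 : ℤ) (1 : ℂ)) *
          (HahnSeries.ofPowerSeries ℤ ℂ (PowerSeries.map (Int.castRingHom ℂ)
            ModularCurve.eisenstein4) *
            HahnSeries.ofPowerSeries ℤ ℂ (PowerSeries.map (Int.castRingHom ℂ) tgE6)) *
          HahnSeries.ofPowerSeries ℤ ℂ (PowerSeries.map (Int.castRingHom ℂ)
            ModularCurve.dedekindEtaUnitInv *
              PowerSeries.map (Int.castRingHom ℂ) ModularCurve.dedekindEtaUnit) := by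
          rw [map_mul]; ring
      _ = _ := by
        rw [hunit, e4, map_one, one_mul, mul_one]
  exact mul_right_cancel₀ hD (h1.symm.trans h2.symm)

/-- the normaliser expanded in `q_M = exp(2πiτ/M)` -/
theorem tga_qLaurent_tgaNorm_level (M : ℕ) [NeZero M] :
    IsQLaurentable M tgaNorm ∧ qLaurent M tgaNorm = ModularCurve.qExpand ℂ M (tgNorm ℂ) := by
  have := qLaurent_change_period M tga_isQLaurentable_tgaNorm
  rwa [tga_qLaurent_tgaNorm] at this

end Fermat.Agent.T1G
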