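/-
T1G-AN (helper1), AN-FRICKE part 7: the analytic Fricke–Weber differences
`ν_{v,w}(τ) = (E₄E₆/Δ)(τ) · (℘_τ(z_v) - ℘_τ(z_w)) / (2πi)²`, `z_v = (bτ + a)/M` for `v = (b, a)`:
holomorphy, transformation law under `SL(2, ℤ)` (through `tgAct`) and Laurent expansion in
`t = exp(2πiτ/M)`, which is helper6's formal `tgNu ℂ M ζ v w` with `ζ = exp(2πi/M)`.
-/
import Mathlib
import Fermat.Agent.Lib.T1G.An.Expansion
import Fermat.Agent.Lib.T1G.An.Norm
import Fermat.Agent.Lib.T1G.Model.Galois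

set_option autoImplicit false
set_option linter.unusedSectionVars false

open Complex Filter Topology Matrix MatrixGroups
open UpperHalfPlane hiding I
open scoped Real Manifold
open Fermat.Agent.ES

noncomputable section

namespace Fermat.Agent.T1G

/-! ### holomorphy from a convergent `q`-series -/

/-- a function on `ℍ` given by a power series in `q_h` converging at every point is holomorphic -/
theorem tga_mdiff_of_hasSum {h : ℝ} (hh : 0 < h) (c : ℕ → ℂ) (g : ℍ → ℂ)
    (hsum : ∀ z : ℍ, HasSum (fun n : ℕ => c n * Function.Periodic.qParam h z ^ n) (g z)) :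
    MDiff g := by
  set p : FormalMultilinearSeries ℂ ℂ ℂ := FormalMultilinearSeries.ofScalars ℂ c with hp
  -- the radius of convergence is at least `1`
  have hrad : (1 : ENNReal) ≤ p.radius := by
    refine ENNReal.le_of_forall_nnreal_lt fun r hr => ?_
    have hr1 : (r : ℝ) < 1 := by exact_mod_cast hr
    set r' : ℝ := max r (1 / 2) with hr'
    have hr'0 : 0 < r' := lt_of_lt_of_le (by norm_num) (le_max_right _ _)
    have hr'1 : r' < 1 := max_lt hr1 (by norm_num)
    set y : ℝ := -(h * Real.log r' / (2 * π)) with hy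
    have hy0 : 0 < y := by
      have : Real.log r' < 0 := Real.log_neg hr'0 hr'1
      have h2 : h * Real.log r' / (2 * π) < 0 :=
        div_neg_of_neg_of_pos (mul_neg_of_pos_of_neg hh this) (by positivity)
      rw [hy]; linarith
    set z : ℍ := ⟨⟨0, y⟩, hy0⟩ with hz
    have hnorm : ‖Function.Periodic.qParam h z‖ = r' := by
      rw [Function.Periodic.norm_qParam]
      have him : (z : ℂ).im = y := rfl
      rw [him, hy]
      have : -2 * π * -(h * Real.log r' / (2 * π)) / h = Real.log r' := by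
        field_simp
      rw [this, Real.exp_log hr'0]
    have hs : Summable fun n : ℕ => ‖p n‖ * (⟨r', hr'0.le⟩ : NNReal) ^ n := by
      have h1 := (hsum z).summable.norm
      refine h1.congr fun n => ?_
      rw [hp, FormalMultilinearSeries.ofScalars_norm, norm_mul, norm_pow, hnorm]
    have h2 := p.le_radius_of_summable_norm hs
    refine le_trans ?_ h2
    rw [ENNReal.coe_le_coe, ← NNReal.coe_le_coe]
    exact le_max_left _ _
  have hpos : 0 < p.radius := lt_of_lt_of_le one_pos hrad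
  have hfp := p.hasFPowerSeriesOnBall hpos
  have hdiff : DifferentiableOn ℂ p.sum (Metric.eball (0 : ℂ) p.radius) := hfp.differentiableOn
  have hmem : ∀ w : ℂ, ‖w‖ < 1 → w ∈ Metric.eball (0 : ℂ) p.radius := by
    intro w hw
    have : w ∈ Metric.eball (0 : ℂ) 1 := by
      rw [← ENNReal.coe_one, Metric.eball_coe, NNReal.coe_one, mem_ball_zero_iff]
      exact hw
    exact Metric.eball_subset_eball hrad this
  have hval : ∀ z : ℍ, g z = p.sum (Function.Periodic.qParam h z) := by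
    intro z
    rw [FormalMultilinearSeries.sum]
    refine ((hsum z).congr_fun fun n => ?_).tsum_eq.symm
    rw [hp, FormalMultilinearSeries.ofScalars_apply_eq, smul_eq_mul]
  rw [UpperHalfPlane.mdifferentiable_iff]
  intro w hw
  have hqw : ‖Function.Periodic.qParam h w‖ < 1 := Function.Periodic.norm_qParam_lt_one hh hw
  have h1 : DifferentiableAt ℂ p.sum (Function.Periodic.qParam h w) :=
    (hdiff _ (hmem _ hqw)).differentiableAt (Metric.isOpen_eball.mem_nhds (hmem _ hqw))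
  have h2 : DifferentiableAt ℂ (p.sum ∘ Function.Periodic.qParam h) w :=
    h1.comp w (Function.Periodic.differentiable_qParam w)
  refine (h2.congr_of_eventuallyEq ?_).differentiableWithinAt
  filter_upwards [isOpen_upperHalfPlaneSet.mem_nhds hw] with w' hw'
  simp only [Function.comp]
  rw [hval, ofComplex_apply_of_im_pos hw']

variable (M : ℕ) [NeZero M]

theorem tgaT_eq_qParam (τ : ℍ) : tgaT M τ = Function.Periodic.qParam (M : ℝ) τ := by
  rw [tgaT, Function.Periodic.qParam, Complex.ofReal_natCast]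

/-! ### the weight `2` differences `(℘(z_v) - ℘(z_w))/(2πi)²` -/

/-- `(℘_τ(z_v) - ℘_τ(z_w)) / (2πi)²` -/
def tgaG (v w : ZMod M × ZMod M) (τ : ℍ) : ℂ :=
  (tgaPv M v τ - tgaPv M w τ) / (2 * π * I) ^ 2

variable {M}

theorem tga_hasSum_tgaG {v w : ZMod M × ZMod M} (hv : v ≠ 0) (hw : w ≠ 0) (τ : ℍ) :
    HasSum (fun n : ℕ => (tgaC M v n - tgaC M w n) • Function.Periodic.qParam (M : ℝ) τ ^ n)
      (tgaG M v w τ * qH (M : ℝ) τ ^ 0) := by
  rw [pow_zero, mul_one, ← tgaT_eq_qParam]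
  exact tga_hasSum_diff M hv hw τ

theorem tga_mdiff_tgaG {v w : ZMod M × ZMod M} (hv : v ≠ 0) (hw : w ≠ 0) :
    MDiff (tgaG M v w) := by
  have hM : (0 : ℝ) < M := Nat.cast_pos.mpr (Nat.pos_of_ne_zero (NeZero.ne M))
  refine tga_mdiff_of_hasSum hM (fun n => tgaC M v n - tgaC M w n) _ fun z => ?_
  have := tga_hasSum_tgaG hv hw z
  rwa [pow_zero, mul_one] at this

theorem tgaG_vadd {v w : ZMod M × ZMod M} (hv : v ≠ 0) (hw : w ≠ 0) (z : ℍ) :
    tgaG M v w ((M : ℝ) +ᵥ z) = tgaG M v w z := by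
  have h1 := tga_hasSum_diff M hv hw ((M : ℝ) +ᵥ z)
  have h2 := tga_hasSum_diff M hv hw z
  have hT : tgaT M ((M : ℝ) +ᵥ z) = tgaT M z := by
    have hMc : (M : ℂ) ≠ 0 := Nat.cast_ne_zero.mpr (NeZero.ne M)
    rw [tgaT, tgaT, UpperHalfPlane.coe_vadd, Complex.ofReal_natCast]
    have : 2 * (π : ℂ) * I * ((M : ℂ) + (z : ℂ)) / M = 2 * π * I * z / M + 2 * π * I := by
      field_simp
      ring
    rw [this, Complex.exp_add, Complex.exp_two_pi_mul_I, mul_one]
  rw [hT] at h1
  exact h1.unique h2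

theorem tga_isQLaurentable_tgaG {v w : ZMod M × ZMod M} (hv : v ≠ 0) (hw : w ≠ 0) :
    IsQLaurentable M (tgaG M v w) :=
  isQLaurentable_of_hasSum (tga_mdiff_tgaG hv hw) (tgaG_vadd hv hw) 0 _
    (tga_hasSum_tgaG hv hw)

variable (M)

/-- `ζ = exp(2πi/M)` as a unit -/
def tgaZetaU : ℂˣ := Units.mk0 (tgaZeta M) (tgaZeta_ne_zero M)

@[simp]
theorem coe_tgaZetaU : ((tgaZetaU M : ℂˣ) : ℂ) = tgaZeta M := rfl

theorem tgaZetaU_pow : tgaZetaU M ^ M = 1 := by
  apply Units.ext
  rw [Units.val_pow_eq_pow_val, coe_tgaZetaU, tgaZeta_pow_M, Units.val_one]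

theorem tgaW_eq_tgW (u : ℂ) : tgaW u = tgW ℂ u := by
  rw [tgaW, tgW, Ring.inverse_eq_inv', div_eq_mul_inv]

/-- the analytic coefficients are the formal ones -/
theorem tgaC_eq_tgSCoeff (v : ZMod M × ZMod M) (n : ℕ) :
    tgaC M v n = tgSCoeff ℂ M (tgaZetaU M) v n := by
  rcases eq_or_ne n 0 with rfl | hn
  · rw [tgSCoeff_zero, tgaC, if_pos rfl, tgZ, Units.val_pow_eq_pow_val, coe_tgaZetaU,
      tgaW_eq_tgW]
  · rw [tgSCoeff_of_ne_zero _ _ _ _ hn, tgaC, if_neg hn]
    refine Finset.sum_congr rfl fun d _ => ?_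
    rw [mul_add, mul_ite, mul_ite, mul_zero]
    simp only [tgZ, Units.val_pow_eq_pow_val, Units.val_inv_eq_inv_val, coe_tgaZetaU, inv_pow]

variable {M}

/-- the Laurent expansion of the weight `2` difference -/
theorem tga_qLaurent_tgaG {v w : ZMod M × ZMod M} (hv : v ≠ 0) (hw : w ≠ 0) :
    qLaurent M (tgaG M v w) =
      HahnSeries.ofPowerSeries ℤ ℂ (tgS ℂ M (tgaZetaU M) v - tgS ℂ M (tgaZetaU M) w) := by
  ext m
  rw [qLaurent_coeff_of_hasSum (tga_mdiff_tgaG hv hw) (tgaG_vadd hv hw) 0 _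
    (tga_hasSum_tgaG hv hw) m, ofPowerSeries_coeff_int]
  simp only [Nat.cast_zero, add_zero, map_sub, coeff_tgS, tgaC_eq_tgSCoeff]

variable (M)

/-! ### the weight `0` generators -/

/-- the analytic Fricke–Weber difference `ν_{v,w}` -/
def tgaNu (v w : ZMod M × ZMod M) (τ : ℍ) : ℂ := tgaNorm τ * tgaG M v w τ

variable {M}

theorem tga_isQLaurentable_tgaNu {v w : ZMod M × ZMod M} (hv : v ≠ 0) (hw : w ≠ 0) :
    IsQLaurentable M (tgaNu M v w) :=
  (tga_qLaurent_tgaNorm_level M).1.mul (tga_isQLaurentable_tgaG hv hw)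

/-- **the Laurent expansion of the analytic generator is the formal generator** -/
theorem tga_qLaurent_tgaNu {v w : ZMod M × ZMod M} (hv : v ≠ 0) (hw : w ≠ 0) :
    qLaurent M (tgaNu M v w) = tgNu ℂ M (tgaZetaU M) v w := by
  have h := qLaurent_mul (tga_qLaurent_tgaNorm_level M).1 (tga_isQLaurentable_tgaG hv hw)
  rw [(tga_qLaurent_tgaNorm_level M).2, tga_qLaurent_tgaG hv hw] at h
  exact h

/-! ### the transformation law -/

variable (M)

/-- the division values depend only on the vector modulo `M` -/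
theorem tgaP_congr {x y : ℤ × ℤ} (h1 : (x.1 : ZMod M) = y.1) (h2 : (x.2 : ZMod M) = y.2)
    (τ : ℍ) : tgaP M x τ = tgaP M y τ := by
  obtain ⟨k1, hk1⟩ := (ZMod.intCast_eq_intCast_iff_dvd_sub _ _ _).mp h1
  obtain ⟨k2, hk2⟩ := (ZMod.intCast_eq_intCast_iff_dvd_sub _ _ _).mp h2
  have : y = x + (M : ℤ) • (k1, k2) := by
    ext
    · simp only [Prod.fst_add, Prod.smul_fst, smul_eq_mul]; linarith
    · simp only [Prod.snd_add, Prod.smul_snd, smul_eq_mul]; linarith
  rw [this, tgaP_add_mul]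

theorem tgaPv_smul (γ : SL(2, ℤ)) (v : ZMod M × ZMod M) (τ : ℍ) :
    tgaPv M v (γ • τ) = denom γ τ ^ 2 * tgaPv M (tgAct M γ v) τ := by
  rw [tgaPv, tgaP_smul, tgaPv]
  congr 1
  apply tgaP_congr
  · simp only [tgaVec, tgAct]
    push_cast
    rw [ZMod.natCast_zmod_val, ZMod.natCast_zmod_val, ZMod.natCast_zmod_val]
  · simp only [tgaVec, tgAct]
    push_cast
    rw [ZMod.natCast_zmod_val, ZMod.natCast_zmod_val, ZMod.natCast_zmod_val]

theorem tgaG_smul (γ : SL(2, ℤ)) (v w : ZMod M × ZMod M) (τ : ℍ) :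
    tgaG M v w (γ • τ) = denom γ τ ^ 2 * tgaG M (tgAct M γ v) (tgAct M γ w) τ := by
  rw [tgaG, tgaG, tgaPv_smul, tgaPv_smul]
  ring

/-- **the transformation law of the analytic generators**: `ν_{v,w}(γτ) = ν_{vγ,wγ}(τ)` -/
theorem tgaNu_smul (γ : SL(2, ℤ)) (v w : ZMod M × ZMod M) (τ : ℍ) :
    tgaNu M v w (γ • τ) = tgaNu M (tgAct M γ v) (tgAct M γ w) τ := by
  rw [tgaNu, tgaNu, tgaG_smul, ← tgaNorm_smul γ τ]
  ring

end Fermat.Agent.T1G
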