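/-
T1G, AN-GENUS (D) (helper5): the genus of the `Γ₁(M)`-field in characteristic `0`.

For a Galois package `G : TgGalois K M ζ` over an algebraically closed field of characteristic `0`
(`ζ` primitive, `6 ≤ M`) TOGETHER WITH the places of the full level field and their stabilisers
(`C : TgcCover G.ρ (tgJ K M ζ)`, the analytic input):
`12 g + 6 c = n + 12`, `g` the genus of `TgOne K M ζ`, `n = tgnDeg M = [SL₂(ℤ) : ±Γ₁(M)]`,
`c = tgnCusps M` the number of `⟨T⟩`-orbits on `SL₂(ℤ)/±Γ₁(M)` (`TgGalois.genus_tgOne`).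
-/
import Fermat.Agent.Lib.T1G.Model.GenusCover
import Fermat.Agent.Lib.T1G.Model.Cusps
import Fermat.Agent.Lib.T1G.ES.Bridge

set_option autoImplicit false
set_option linter.unusedSectionVars false
set_option linter.style.haveILetI false

open HahnSeries ModularCurve Fermat.Agent.Igusa Matrix MatrixGroups CongruenceSubgroup
open IntermediateField Fermat.Agent.Curve AlgebraicCurve ModularGroup

noncomputable section

namespace Fermat.Agent.T1G

namespace TgGalois

variable {K : Type*} [Field K] {M : ℕ} [NeZero M] {ζ : Kˣ} (G : TgGalois K M ζ)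

include G in
/-- the image of `ι_M` is the fixed field of `±Γ₁(M)` -/
theorem fieldRange_tgOneIncl (hζ : IsPrimitiveRoot ζ M) (hM : 6 ≤ M) :
    (tgOneIncl K M ζ).fieldRange =
      IntermediateField.fixedField ((tgPm (Gamma1 M)).map G.ρ) := by
  rw [G.map_tgPm]
  ext x
  rw [AlgHom.mem_fieldRange, IntermediateField.mem_fixedField_iff]
  constructor
  · rintro ⟨y, rfl⟩ _ ⟨γ, hγ, rfl⟩
    exact G.ρ_tgOneIncl hζ hM (le_tgPm _ hγ) y
  · intro h
    have h1 : ∀ γ ∈ Gamma1 M, G.ρ γ x = x := fun γ hγ => h _ ⟨γ, hγ, rfl⟩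
    obtain ⟨y, hy, hyx⟩ := (G.mem_tgOne_iff hζ hM x).mp h1
    exact ⟨⟨y, hy⟩, Subtype.ext hyx⟩

set_option synthInstance.maxHeartbeats 400000 in
/-- `TgOne K M ζ` as the fixed field of `±Γ₁(M)` in the full level field -/
def tgOneEquiv (hζ : IsPrimitiveRoot ζ M) (hM : 6 ≤ M) :
    ↥(TgOne K M ζ) ≃ₐ[K] IntermediateField.fixedField ((tgPm (Gamma1 M)).map G.ρ) :=
  (AlgEquiv.ofInjectiveField (tgOneIncl K M ζ)).trans
    (IntermediateField.equivOfEq (G.fieldRange_tgOneIncl hζ hM))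

theorem coe_tgOneEquiv (hζ : IsPrimitiveRoot ζ M) (hM : 6 ≤ M) (y : ↥(TgOne K M ζ)) :
    ((G.tgOneEquiv hζ hM y : IntermediateField.fixedField ((tgPm (Gamma1 M)).map G.ρ)) :
      ↥(tgFull K M ζ)) = tgOneIncl K M ζ y := rfl

/-- **the genus of the `Γ₁(M)`-field in characteristic `0`**, from the places of the full level
field: `12 g + 6 c = n + 12` -/
theorem genus_tgOne [IsAlgClosed K] [CharZero K] (hζ : IsPrimitiveRoot ζ M) (hM : 6 ≤ M)
    (C : TgcCover G.ρ (tgJ K M ζ)) :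
    12 * genusR K ↥(TgOne K M ζ) + 6 * tgnCusps M = tgnDeg M + 12 := by
  have hker : G.ρ.ker ≤ tgPm (Gamma1 M) := by
    rw [G.ker_eq hζ (by omega)]
    exact tgPm_mono (tg_Gamma_le_Gamma1 M)
  have key := C.two_genusR_sub_two (tgPm (Gamma1 M)) hker (G.tgOneEquiv hζ hM) (tgOneJ K M ζ)
    (by rw [coe_tgOneEquiv, tgOneIncl_tgOneJ])
  have hneg : (-1 : SL(2, ℤ)) ∈ tgPm (Gamma1 M) := neg_one_mem_tgPm _
  have hS := tge_two_mul_orbCount_S (tgPm (Gamma1 M)) hneg
    (fun γ hγ => tge_trace_ne_zero M (by omega) hγ)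
  have hU := tge_three_mul_orbCount_U (tgPm (Gamma1 M)) hneg
    (fun γ hγ => tge_trace_ne_one M (by omega) hγ)
  unfold Fermat.Agent.ES.orbCount at hS hU
  unfold Fermat.Agent.ES.elU at hU
  unfold tgnCusps tgnDeg TgnCosets
  have hS' : (2 : ℤ) * (Nat.card (MulAction.orbitRel.Quotient (Subgroup.zpowers S)
      (SL(2, ℤ) ⧸ tgPm (Gamma1 M))) : ℤ) = ((tgPm (Gamma1 M)).index : ℤ) := by exact_mod_cast hS
  have hU' : (3 : ℤ) * (Nat.card (MulAction.orbitRel.Quotient (Subgroup.zpowers (S * T))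
      (SL(2, ℤ) ⧸ tgPm (Gamma1 M))) : ℤ) = ((tgPm (Gamma1 M)).index : ℤ) := by exact_mod_cast hU
  have : (12 * (genusR K ↥(TgOne K M ζ) : ℤ) + 6 * (Nat.card (MulAction.orbitRel.Quotient
      (Subgroup.zpowers T) (SL(2, ℤ) ⧸ tgPm (Gamma1 M))) : ℤ)) =
      ((tgPm (Gamma1 M)).index : ℤ) + 12 := by
    linarith
  exact_mod_cast this

/-- the same in the `CurveP` normalisation of the Riemann genus -/
theorem genusP_tgOne [IsAlgClosed K] [CharZero K] (hζ : IsPrimitiveRoot ζ M) (hM : 6 ≤ M)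
    (C : TgcCover G.ρ (tgJ K M ζ)) :
    12 * CurveP.genusR K ↥(TgOne K M ζ) + 6 * tgnCusps M = tgnDeg M + 12 := by
  have hx := G.isFunctionFieldGen_tgOneJ hζ hM
  haveI := G.isSeparable_tgOne
  haveI := Fermat.Agent.Curve.hasCanonicalDivisor hx
  have h2 : Fermat.Agent.Curve.genusR K ↥(TgOne K M ζ) = CurveP.genusR K ↥(TgOne K M ζ) := by
    rw [← Fermat.Agent.Curve.genus_eq_genusR hx, CurveP.genus_eq_genusR hx]
  rw [← h2]
  exact G.genus_tgOne hζ hM C

end TgGalois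

end Fermat.Agent.T1G
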